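/-
S55 / Program C, package C9b, leaf L2-P (ORB) of `H93/L2PLeaves.lean`, helper33:
the absolute Galois group of `ℚ` permutes transitively the valuation subrings of
`AlgebraicClosure ℚ` over a prime `ℓ`.
-/
import Fermat.Agent.S55.H93.L2PLeaves
import Fermat.Agent.S54.H94.Frobenius

set_option autoImplicit false

namespace Fermat.Agent.S55.H33

open scoped Pointwise
open Fermat.Agent.S54.H94

local notation "Qbar" => AlgebraicClosure ℚ
local notation "Γ" => (AlgebraicClosure ℚ ≃ₐ[ℚ] AlgebraicClosure ℚ)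
local notation "𝓑" => integralClosure ℤ (AlgebraicClosure ℚ)

attribute [local instance] Fermat.Agent.S54.H94.topB Fermat.Agent.S54.H94.discreteTopB

/-- If `g` carries the prime of `A` to the prime of `A'`, then `g` maps `A` into `A'`. -/
theorem map_mem_of_primeB_eq_smul (A A' : ValuationSubring Qbar) (g : Γ)
    (h : primeB A' = g • primeB A) {y : Qbar} (hy : y ∈ A) : g y ∈ A' := by
  obtain ⟨b, s, hs, hbs⟩ := exists_inclB_mul_eq (⟨y, hy⟩ : A)
  have hbs' : y * (s : Qbar) = (b : Qbar) := congrArg Subtype.val hbs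
  have hsP : s ∉ primeB A := by
    rw [mem_primeB_iff]
    exact (isUnit_inclB_iff s).mp hs
  have hgs : g • s ∉ primeB A' := by
    rw [h, Ideal.smul_mem_pointwise_smul_iff]
    exact hsP
  have hunit : IsUnit (inclB A' (g • s)) := by
    rw [isUnit_inclB_iff, ← mem_primeB_iff]
    exact hgs
  obtain ⟨t, ht⟩ := hunit.exists_right_inv
  have ht' : g (s : Qbar) * (t : Qbar) = 1 := congrArg Subtype.val ht
  have h2 : g y * g (s : Qbar) = g (b : Qbar) := by rw [← map_mul, hbs']
  have h3 : g y = g (b : Qbar) * (t : Qbar) := by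
    rw [← h2, mul_assoc, ht', mul_one]
  rw [h3]
  exact A'.mul_mem _ _ (inclB A' (g • b)).2 t.2

/-- **Leaf (ORB)** of C9b L2-P: the valuation subrings of `AlgebraicClosure ℚ` over a prime `ℓ`
are conjugate under the absolute Galois group. -/
theorem orbStatement : Fermat.Agent.S55.H93.OrbStatement := by
  intro ℓ hℓ A A' hA hA'
  have h1 : (primeB A).LiesOver (Ideal.span {(ℓ : ℤ)}) := primeB_liesOver hℓ hA
  have h2 : (primeB A').LiesOver (Ideal.span {(ℓ : ℤ)}) := primeB_liesOver hℓ hA'
  have hunder : (primeB A).under ℤ = (primeB A').under ℤ := by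
    rw [← h1.over, ← h2.over]
  obtain ⟨g, hg⟩ := Algebra.IsInvariant.exists_smul_of_under_eq_of_profinite
    (A := ℤ) (G := Γ) (primeB A) (primeB A') hunder
  have hg' : primeB A = g⁻¹ • primeB A' := by
    rw [hg, inv_smul_smul]
  refine ⟨g, ?_⟩
  ext x
  rw [ValuationSubring.mem_pointwise_smul_iff_inv_smul_mem]
  constructor
  · intro hx
    have := map_mem_of_primeB_eq_smul A A' g hg hx
    have h3 : g (g⁻¹ • x) = x := by
      show g (g⁻¹ x) = x
      exact g.apply_symm_apply x
    rwa [h3] at this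
  · intro hx
    exact map_mem_of_primeB_eq_smul A' A g⁻¹ hg' hx

end Fermat.Agent.S55.H33
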