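import Fermat.Agent.S55.H62.RPairing
import Fermat.Agent.S55.H88.LayerSpec
import Fermat.Agent.S55.H26.LocalInvSpec
import Fermat.Agent.S55.H43.LevelField

/-!
# S55 / C9b, leaf (RECQ): helper62's `RECStatement` — statements

`RECStatement p S inv` (the local invariants of a class of `H²(G_S, 𝔽_p(χ))` sum to zero) is a
finite-level statement over `ℚ`.  A level-`S` cocycle `u` is constant modulo `Gal(Qbar/K)` for a
finite Galois `K ∋ ζ` unramified outside `S`; `c = ζ ^ u` is a `2`-cocycle of `Gal(K/ℚ)` with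
values in `Kˣ` (in fact in `μ_p ⊆ O_{K,S}ˣ`), its class is killed by `p`.

Inputs (each a `Prop`):

* `RecQStatement p S`        : C8 reciprocity for the layers `K/ℚ` (`H29.Layer.RecAt`);
* `UnitOutsideQStatement S`  : C5's (L7) `H88.SDataUnitOutsideStatement ℚ K S` for these `K`;
* `LocCmpStatement p S inv ζ`: the local invariant at `q ∈ S` of the class of `ζ ^ u` is
  `inv q (loc_q [u]) / p`.

`LocCmpStatement` is in turn a consequence of `IsLocalInvP` (helper26's `IsLocalInv` on the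
Prelude's `continuousH2`, relative to the image of the global `ζ` in `PadicAlgCl q`), C5's (L1)
`H88.LinvIndepStatement` and C3's (V6) `H66.LeafInvRes`.
-/

set_option autoImplicit false

open CategoryTheory groupCohomology ExtCitation

noncomputable section

namespace Fermat.Agent.S55.H33

open Fermat.Agent.S55

local notation "Qbar" => AlgebraicClosure ℚ
local notation "Γ" => (AlgebraicClosure ℚ ≃ₐ[ℚ] AlgebraicClosure ℚ)

attribute [local instance] H88.factOfPrimes

variable (p : ℕ) [Fact p.Prime] (S : Finset Nat.Primes)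

/-- `ζ ^ a` as an element of the Galois module `Kˣ`. -/
def zetaPowG {F K : Type} [Field F] [Field K] [Algebra F K] (ζ : Kˣ) (a : ZMod p) :
    Rep.ofAlgebraAutOnUnits F K :=
  Rep.toAdditive.symm (Additive.ofMul (ζ ^ a.val))

/-- **Input (REC-Q)**: C8 reciprocity (`H29.Layer.RecAt`) for the classes killed by `p` of the
layers `K/ℚ`, `K` finite Galois, unramified outside `S`, containing `μ_p`. -/
def RecQStatement : Prop :=
  ∀ (K : IntermediateField ℚ Qbar) [FiniteDimensional ℚ K] [IsGalois ℚ K],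
    K.IsUnramifiedOutside S → (∀ ζ : Qbar, ζ ^ p = 1 → ζ ∈ K) →
    ∀ α : groupCohomology (H88.layerOf ℚ K).M 2, p • α = 0 → (H88.layerOf ℚ K).RecAt α

/-- **Input (OUT-Q)**: C5's (L7) for the layers `K/ℚ`, `K` finite Galois unramified outside
`S`: the classes of `S`-units have trivial local invariants outside `S`. -/
def UnitOutsideQStatement : Prop :=
  ∀ (K : IntermediateField ℚ Qbar) [FiniteDimensional ℚ K] [IsGalois ℚ K],
    K.IsUnramifiedOutside S → H88.SDataUnitOutsideStatement ℚ K S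

/-- **Input (LOC-CMP)**: if the unit-valued cocycle `c` of `Gal(K/ℚ)` realises the level-`S`
cocycle `u` (`c (σ|K, τ|K) = ζ ^ u (σ, τ)`), then the local invariant of `[c]` at the place of
`ℚ` above `q ∈ S` is `inv q (loc_q [u]) / p`. -/
def LocCmpStatement (inv : H62.LocalInv p S) (ζ : Qbar) : Prop :=
  ∀ (K : IntermediateField ℚ Qbar) [FiniteDimensional ℚ K] [IsGalois ℚ K] (ζK : Kˣ),
    ((ζK : K) : Qbar) = ζ →
    ∀ (u : ↥(levelCocyclesS₂ S (H62.chiRep p)))
      (c : cocycles₂ (Rep.ofAlgebraAutOnUnits ℚ K)),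
      (∀ σ τ : Γ, c.1 (AlgEquiv.restrictNormalHom K σ, AlgEquiv.restrictNormalHom K τ) =
        zetaPowG p ζK (u.1 (σ, τ))) →
      ∀ (q : ↥S) (v : H88.FinPlace ℚ), v.1 = q.1 →
        (H88.layerOf ℚ K).linv v (H2π (Rep.ofAlgebraAutOnUnits ℚ K) c) =
          H26.qzOfZMod p (inv q (locRes₂S S (H62.chiRep p) (primeLocalToGlobal q.1)
            (continuousH2Sπ S (H62.chiRep p) u)))

/-- helper26's `IsLocalInv` on the Prelude's `continuousH2`: `invq [u] = a` iff
`inv_{L/ℚ_q} [c] = a / p` for every finite Galois `L/ℚ_q` and every unit-valued cocycle `c` of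
`Gal(L/ℚ_q)` realising the local level cocycle `u` (`c (g|L, h|L) = ζ ^ u (g, h)`). -/
def IsLocalInvP (q : ↥S) (ζq : PadicAlgCl (q.1 : ℕ))
    (invq : H62.H2loc p S q →ₗ[ZMod p] ZMod p) : Prop :=
  ∀ (L : IntermediateField ℚ_[(q.1 : ℕ)] (PadicAlgCl (q.1 : ℕ)))
    [FiniteDimensional ℚ_[(q.1 : ℕ)] L] [IsGalois ℚ_[(q.1 : ℕ)] L] (ζL : Lˣ),
    ((ζL : L) : PadicAlgCl (q.1 : ℕ)) = ζq →
    ∀ (u : ↥(levelCocycles₂ (primeLocalToGlobal q.1) (H62.chiLoc p S q)))
      (c : cocycles₂ (Rep.ofAlgebraAutOnUnits ℚ_[(q.1 : ℕ)] L)),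
      (∀ g h : PadicAlgCl (q.1 : ℕ) ≃ₐ[ℚ_[(q.1 : ℕ)]] PadicAlgCl (q.1 : ℕ),
        c.1 (AlgEquiv.restrictNormalHom L g, AlgEquiv.restrictNormalHom L h) =
          zetaPowG p ζL (u.1 (g, h))) →
      H26.qzOfZMod p (invq (continuousH2π (primeLocalToGlobal q.1) (H62.chiLoc p S q) u)) =
        H66.inv (q.1 : ℕ) L (H2π (Rep.ofAlgebraAutOnUnits ℚ_[(q.1 : ℕ)] L) c)

end Fermat.Agent.S55.H33

end
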