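import Fermat.Agent.S55.H33.RecQ
import Fermat.Agent.S55.H28.LinvFin
import Fermat.Agent.S55.H20.UnrBridge
import Fermat.Agent.S55.H29.C8Hasse

/-!
# S55 / C9b, leaf (RECQ): the inputs (REC-Q) and (OUT-Q)

* `unitOutsideQStatement : UnitOutsideQStatement S` — unconditional, from helper28's
  `linvAt_eq_zero_of_units` and helper20's (UNR-BRIDGE);
* `recQStatement_of : H29.RecStatement H29.NFLayer p → RecQStatement p S` — C8's export (REC) for
  the class of all finite Galois layers of number fields contains the layers `K/ℚ`;
* `recStatement_of_rec`: `H62.RECStatement p S inv` from C8's (REC) and `LocCmpStatement`.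
-/

set_option autoImplicit false
set_option maxHeartbeats 400000
set_option synthInstance.maxHeartbeats 400000

open CategoryTheory groupCohomology ExtCitation

noncomputable section

namespace Fermat.Agent.S55.H33

open Fermat.Agent.S55

local notation "Qbar" => AlgebraicClosure ℚ
local notation "Γ" => (AlgebraicClosure ℚ ≃ₐ[ℚ] AlgebraicClosure ℚ)

attribute [local instance] H88.factOfPrimes

variable {p : ℕ} [Fact p.Prime] {S : Finset Nat.Primes}

/-- A finite level is a number field. -/
theorem numberField_of_finiteDimensional (K : IntermediateField ℚ Qbar) [FiniteDimensional ℚ K] :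
    NumberField K :=
  { to_charZero := inferInstance, to_finiteDimensional := inferInstance }

variable (S) in
/-- **(OUT-Q)**, unconditionally: for `K/ℚ` finite Galois unramified outside `S`, the classes of
`S`-units have trivial local invariants outside `S`. -/
theorem unitOutsideQStatement : UnitOutsideQStatement S := by
  intro K _ _ hK v hv β
  have : NumberField K := numberField_of_finiteDimensional K
  have hvS : v.1 ∉ S := fun h => hv (H88.mem_sPlaces_iff.2 h)
  have hunr : H88.IsUnramifiedAt (v.1 : ℕ) ℚ K :=
    H20.isUnramifiedAt_of_isUnramifiedOutside' S K hK v.1 hvS ℚ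
  exact H28.linvAt_eq_zero_of_units (v.1 : ℕ) ℚ K (H88.FinPlace.ext K v) hunr
    (H88.sUnitRep S ℚ K) (H88.sUnitIncl S ℚ K)
    (fun a => (show ↥(H88.sUnitGroup S K) from a).2 v.1 hvS (H88.FinPlace.ext K v)) β

omit [Fact p.Prime] in
variable (S) in
/-- **(REC-Q)** from C8's export (REC) for the class of all finite Galois layers of number
fields. -/
theorem recQStatement_of (hRec : H29.RecStatement H29.NFLayer p) : RecQStatement p S := by
  intro K _ _ _ _ α hα
  have : NumberField K := numberField_of_finiteDimensional K
  exact hRec (H88.layerOf ℚ K) ⟨ℚ, K, inferInstance, inferInstance, inferInstance, inferInstance,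
    inferInstance, inferInstance, rfl⟩ α ⟨1, by rwa [pow_one]⟩

/-- **(RECQ)** from C8's (REC) and the local comparison. -/
theorem recStatement_of_rec (hpS : pPrime p ∈ S) (inv : H62.LocalInv p S) (ζ : Qbar)
    (hζ : ζ ^ p = 1) (hRec : H29.RecStatement H29.NFLayer p)
    (hCmp : LocCmpStatement p S inv ζ) : H62.RECStatement p S inv :=
  recStatement_of hpS inv ζ hζ (recQStatement_of S hRec) (unitOutsideQStatement S) hCmp

end Fermat.Agent.S55.H33

end
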