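/-
S55 / Program C, package C4 (helper26), leaf (HB-DIM) = tasks row 438 (helper33).

`hilbertDim : H26.LocalFieldLevelsStatement q → H26.HilbertDimStatement p q`:
Kummer theory for a finite extension `E ∋ ζ` of `ℚ_q` inside `Ω = PadicAlgCl q`: the map
`b ↦ ψ_b` (`σ β = ζ ^ ψ_b σ * β` for `β ^ p = b`) is an additive surjection of `Eˣ` onto the
space of level-constant homomorphisms `Gal(Ω/E) → 𝔽_p`, and it kills `p`-th powers.

Surjectivity: a level-constant `χ` factors through `Gal(L'/E)` for a finite Galois `L'/E`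
((LVL)(a) + `H72.exists_galois_over`); `g ↦ ζ ^ χ g` is a multiplicative 1-cocycle of `Gal(L'/E)`
in `L'ˣ`, hence a coboundary `g β / β` (Hilbert 90, Mathlib); `b := β ^ p` is fixed by
`Gal(Ω/E)`, so `b ∈ E`, and `ψ_b = χ`.
-/
import Fermat.Agent.S55.H26.LocalHilbertSpec
import Fermat.Agent.S55.H72.CorrEExists

set_option autoImplicit false

open CategoryTheory

noncomputable section

namespace Fermat.Agent.S55.H33

open Fermat.Agent.S55.H49 Fermat.Agent.S55.H26 Fermat.Agent.S55.H66 Fermat.Agent.S55.H72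
open IntermediateField

section Roots

/-- `a ↦ ζ ^ a.val` is additive on `ZMod p` when `ζ ^ p = 1`. -/
theorem zpowVal_add {M : Type*} [Monoid M] {p : ℕ} [NeZero p] {ζ : M} (hζ : ζ ^ p = 1)
    (a b : ZMod p) :
    ζ ^ (a + b).val = ζ ^ a.val * ζ ^ b.val := by
  have h1 : (a + b).val + p * ((a.val + b.val) / p) = a.val + b.val := by
    rw [ZMod.val_add]
    exact Nat.mod_add_div _ _
  calc ζ ^ (a + b).val = ζ ^ (a + b).val * (ζ ^ p) ^ ((a.val + b.val) / p) := by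
        rw [hζ, one_pow, mul_one]
    _ = ζ ^ ((a + b).val + p * ((a.val + b.val) / p)) := by rw [pow_add, pow_mul]
    _ = ζ ^ (a.val + b.val) := by rw [h1]
    _ = ζ ^ a.val * ζ ^ b.val := pow_add _ _ _

variable {K : Type*} [Field K] {p : ℕ} [Fact p.Prime] {ζ : K}

/-- `a ↦ ζ ^ a.val` is injective on `ZMod p` for a primitive `p`-th root of unity. -/
theorem zpowVal_inj (hζ : IsPrimitiveRoot ζ p) {a b : ZMod p} (h : ζ ^ a.val = ζ ^ b.val) :
    a = b :=
  ZMod.val_injective p (hζ.pow_inj (ZMod.val_lt a) (ZMod.val_lt b) h)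

/-- Every `p`-th root of unity is `ζ ^ a.val`. -/
theorem exists_zpowVal_eq (hζ : IsPrimitiveRoot ζ p) {x : K} (hx : x ^ p = 1) :
    ∃ a : ZMod p, ζ ^ a.val = x := by
  obtain ⟨i, hi, rfl⟩ := hζ.eq_pow_of_pow_eq_one hx
  exact ⟨(i : ZMod p), by rw [ZMod.val_natCast_of_lt hi]⟩

open Classical in
/-- The exponent `a` with `y = ζ ^ a * x` (and `0` if there is none). -/
def kumExp (p : ℕ) (ζ x y : K) : ZMod p :=
  if h : ∃ a : ZMod p, y = ζ ^ a.val * x then h.choose else 0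

theorem kumExp_eq (hζ : IsPrimitiveRoot ζ p) {x y : K} (hx : x ≠ 0) {a : ZMod p}
    (h : y = ζ ^ a.val * x) : kumExp p ζ x y = a := by
  have hex : ∃ a : ZMod p, y = ζ ^ a.val * x := ⟨a, h⟩
  rw [kumExp, dif_pos hex]
  have h2 : ζ ^ a.val * x = ζ ^ hex.choose.val * x := h.symm.trans hex.choose_spec
  exact (zpowVal_inj hζ (mul_right_cancel₀ hx h2)).symm

/-- Hilbert 90 for `μ_p`-valued characters: an additive character `c : Gal(L/K) → 𝔽_p` of a
finite extension `L/K` containing a `p`-th root of unity `ζ` fixed by the Galois group is of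
the form `g β = ζ ^ c g * β`. -/
theorem exists_kummer_generator {K L : Type*} [Field K] [Field L] [Algebra K L]
    [FiniteDimensional K L] (p : ℕ) [Fact p.Prime] (ζ : L) (hζp : ζ ^ p = 1)
    (hfix : ∀ g : L ≃ₐ[K] L, g ζ = ζ) (c : (L ≃ₐ[K] L) → ZMod p)
    (hc : ∀ g h, c (g * h) = c g + c h) :
    ∃ β : L, β ≠ 0 ∧ ∀ g : L ≃ₐ[K] L, g β = ζ ^ (c g).val * β := by
  have hp : p.Prime := Fact.out
  let u : Lˣ := Units.ofPowEqOne ζ p hζp hp.ne_zero
  have hup : u ^ p = 1 := Units.ext (by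
    show ((u ^ p : Lˣ) : L) = 1
    rw [Units.val_pow_eq_pow_val]
    exact hζp)
  have hufix : ∀ g : L ≃ₐ[K] L, g • u = u := fun g => Units.ext (hfix g)
  let f : (L ≃ₐ[K] L) → Lˣ := fun g => u ^ (c g).val
  have hf : groupCohomology.IsMulCocycle₁ f := by
    intro g h
    show u ^ (c (g * h)).val = g • u ^ (c h).val * u ^ (c g).val
    rw [smul_pow', hufix, hc, zpowVal_add hup, mul_comm]
  obtain ⟨β', hβ'⟩ := groupCohomology.isMulCoboundary₁_of_isMulCocycle₁_of_aut_to_units f hf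
  refine ⟨(β' : L), β'.ne_zero, fun g => ?_⟩
  have h2 : g • β' = f g * β' := by rw [← hβ' g, div_mul_cancel]
  have h3 := congrArg (fun v : Lˣ => (v : L)) h2
  simpa [f, u] using h3

end Roots

variable (p : ℕ) [Fact p.Prime] (q : ℕ) [Fact q.Prime]

/-- **Leaf (HB-DIM)** of C4: the Kummer map `Eˣ → X_E`, `b ↦ ψ_b`, is additive, surjective and
kills `p`-th powers. -/
theorem hilbertDim (hLVL : LocalFieldLevelsStatement q) : HilbertDimStatement p q := by
  intro ζ hζ E _ hζE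
  have hp : p.Prime := Fact.out
  have hζp : ζ ^ p = 1 := hζ.pow_eq_one
  -- elements of `H = Gal(Ω/E)` fix `E` pointwise, in particular `ζ`
  have hfixE : ∀ (σ : E.fixingSubgroup) (x : PadicAlgCl q), x ∈ E → (σ : GalQ q) x = x := by
    intro σ x hx
    exact (IntermediateField.mem_fixingSubgroup_iff E σ.1).mp σ.2 x hx
  have hfixζ : ∀ σ : E.fixingSubgroup, (σ : GalQ q) ζ = ζ := fun σ => hfixE σ ζ hζE
  have hmul : ∀ (σ τ : E.fixingSubgroup) (x : PadicAlgCl q),
      ((σ * τ : E.fixingSubgroup) : GalQ q) x = (σ : GalQ q) ((τ : GalQ q) x) := fun _ _ _ => rfl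
  -- chosen `p`-th roots
  have hroot : ∀ b : Eˣ, ∃ β : PadicAlgCl q, β ^ p = ((b : E) : PadicAlgCl q) :=
    fun b => IsAlgClosed.exists_pow_nat_eq _ hp.pos
  choose rt hrt using hroot
  have hb0 : ∀ b : Eˣ, ((b : E) : PadicAlgCl q) ≠ 0 := by
    intro b h
    exact b.ne_zero (Subtype.ext h)
  have hne0 : ∀ (b : Eˣ) (β : PadicAlgCl q), β ^ p = ((b : E) : PadicAlgCl q) → β ≠ 0 := by
    intro b β hβ h
    exact hb0 b (by rw [← hβ, h, zero_pow hp.ne_zero])
  have hrt0 : ∀ b : Eˣ, rt b ≠ 0 := fun b => hne0 b (rt b) (hrt b)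
  -- existence of the exponent
  have hF1 : ∀ (b : Eˣ) (β : PadicAlgCl q), β ^ p = ((b : E) : PadicAlgCl q) →
      ∀ σ : E.fixingSubgroup, ∃ a : ZMod p, (σ : GalQ q) β = ζ ^ a.val * β := by
    intro b β hβ σ
    have hβ0 : β ≠ 0 := hne0 b β hβ
    have h1 : ((σ : GalQ q) β / β) ^ p = 1 := by
      rw [div_pow, ← map_pow, hβ, hfixE σ _ (b : E).2, div_self (hb0 b)]
    obtain ⟨a, ha⟩ := exists_zpowVal_eq hζ h1
    exact ⟨a, by rw [ha, div_mul_cancel₀ _ hβ0]⟩
  -- the Kummer characters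
  let kap : Eˣ → E.fixingSubgroup → ZMod p :=
    fun b σ => kumExp p ζ (rt b) ((σ : GalQ q) (rt b))
  have hkap : ∀ (b : Eˣ) (σ : E.fixingSubgroup),
      (σ : GalQ q) (rt b) = ζ ^ (kap b σ).val * rt b := by
    intro b σ
    obtain ⟨a, ha⟩ := hF1 b (rt b) (hrt b) σ
    rw [show kap b σ = a from kumExp_eq hζ (hrt0 b) ha]
    exact ha
  -- the same formula for every `p`-th root of `b`
  have hF3 : ∀ (b : Eˣ) (β : PadicAlgCl q), β ^ p = ((b : E) : PadicAlgCl q) →
      ∀ σ : E.fixingSubgroup, (σ : GalQ q) β = ζ ^ (kap b σ).val * β := by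
    intro b β hβ σ
    have h1 : (β / rt b) ^ p = 1 := by rw [div_pow, hβ, hrt b, div_self (hb0 b)]
    obtain ⟨c, hc⟩ := exists_zpowVal_eq hζ h1
    have h2 : β = ζ ^ c.val * rt b := by rw [hc, div_mul_cancel₀ _ (hrt0 b)]
    rw [h2, map_mul, map_pow, hfixζ σ, hkap b σ]
    ring
  -- uniqueness of the exponent
  have huniq : ∀ (b : Eˣ) (β : PadicAlgCl q), β ^ p = ((b : E) : PadicAlgCl q) →
      ∀ (σ : E.fixingSubgroup) (a : ZMod p), (σ : GalQ q) β = ζ ^ a.val * β → kap b σ = a := by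
    intro b β hβ σ a ha
    have h1 := hF3 b β hβ σ
    rw [ha] at h1
    exact (zpowVal_inj hζ (mul_right_cancel₀ (hne0 b β hβ) h1)).symm
  -- homomorphism in `σ`
  have hhom : ∀ (b : Eˣ) (σ τ : E.fixingSubgroup), kap b (σ * τ) = kap b σ + kap b τ := by
    intro b σ τ
    refine huniq b (rt b) (hrt b) (σ * τ) _ ?_
    rw [hmul, hkap b τ, map_mul, map_pow, hfixζ σ, hkap b σ, zpowVal_add hζp]
    ring
  -- additivity in `b`
  have hadd : ∀ (b b' : Eˣ) (σ : E.fixingSubgroup), kap (b * b') σ = kap b σ + kap b' σ := by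
    intro b b' σ
    have hβ : (rt b * rt b') ^ p = (((b * b' : Eˣ) : E) : PadicAlgCl q) := by
      rw [mul_pow, hrt b, hrt b']
      rfl
    refine huniq (b * b') _ hβ σ _ ?_
    rw [map_mul, hkap b σ, hkap b' σ, zpowVal_add hζp]
    ring
  -- `p`-th powers
  have hpow : ∀ (b : Eˣ) (σ : E.fixingSubgroup), kap (b ^ p) σ = 0 := by
    intro b σ
    have hβ : ((b : E) : PadicAlgCl q) ^ p = (((b ^ p : Eˣ) : E) : PadicAlgCl q) := rfl
    refine huniq (b ^ p) _ hβ σ 0 ?_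
    rw [hfixE σ _ (b : E).2, ZMod.val_zero, pow_zero, one_mul]
  -- level-constancy
  have hlev : ∀ b : Eˣ, IsLevelFun₁ (Dloc q) E.fixingSubgroup (kap b) := by
    intro b
    have hfin : FiniteDimensional ℚ_[q] ℚ_[q]⟮rt b⟯ :=
      IntermediateField.adjoin.finiteDimensional (Algebra.IsIntegral.isIntegral (rt b))
    obtain ⟨F, hF, -, hsub⟩ := hLVL.2.1 ℚ_[q]⟮rt b⟯ hfin
    refine ⟨F, hF, fun h n hn => ?_⟩
    have hn' : (n : GalQ q) (rt b) = rt b :=
      (IntermediateField.mem_fixingSubgroup_iff _ _).mp (hsub hn) (rt b)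
        (IntermediateField.mem_adjoin_simple_self ℚ_[q] (rt b))
    have h0 : kap b n = 0 := by
      refine huniq b (rt b) (hrt b) n 0 ?_
      rw [hn', ZMod.val_zero, pow_zero, one_mul]
    rw [hhom, h0, add_zero]
  -- the Kummer map
  let κ : Additive Eˣ →+ levelHoms (k := ZMod p) (Dloc q) E.fixingSubgroup :=
    AddMonoidHom.mk' (fun b => ⟨kap (Additive.toMul b), hhom _, hlev _⟩) (fun b b' =>
      Subtype.ext (funext fun σ => hadd (Additive.toMul b) (Additive.toMul b') σ))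
  refine ⟨κ, ?_, fun b => Subtype.ext (funext fun σ => hpow b σ)⟩
  -- surjectivity
  rintro ⟨χ, hχhom, F', hF', hχF⟩
  obtain ⟨L₀, hL₀fin, hL₀gal, hL₀sub⟩ := hLVL.1 F' hF'
  obtain ⟨L', hL'fin, hL'gal, hL'⟩ := exists_galois_over E L₀
  have hχ1 : χ 1 = 0 := by
    have := hχhom 1 1
    rw [mul_one] at this
    exact left_eq_add.mp this
  -- `χ` factors through `Gal(L'/E)`
  have hfac : ∀ h₁ h₂ : E.fixingSubgroup, resE E L' h₁ = resE E L' h₂ → χ h₂ = χ h₁ := by
    intro h₁ h₂ h12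
    have hn : ((h₁⁻¹ * h₂ : E.fixingSubgroup) : GalQ q) ∈ (Dloc q).sub F' := by
      refine hL₀sub ?_
      rw [IntermediateField.mem_fixingSubgroup_iff]
      intro x hx
      have e1 := resE_apply_coe E L' h₁ ⟨x, hL' x hx⟩
      have e2 := resE_apply_coe E L' h₂ ⟨x, hL' x hx⟩
      rw [h12] at e1
      have e3 : (h₂ : GalQ q) x = (h₁ : GalQ q) x := e2.symm.trans e1
      show (h₁ : GalQ q)⁻¹ ((h₂ : GalQ q) x) = x
      rw [e3]
      exact (h₁ : GalQ q).symm_apply_apply x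
    have := hχF h₁ (h₁⁻¹ * h₂) hn
    rwa [mul_inv_cancel_left] at this
  have hsurj := resE_surjective E L'
  let s : (L' ≃ₐ[E] L') → E.fixingSubgroup := Function.surjInv hsurj
  have hs : ∀ g, resE E L' (s g) = g := Function.surjInv_eq hsurj
  have hχs : ∀ h : E.fixingSubgroup, χ (s (resE E L' h)) = χ h :=
    fun h => hfac h (s (resE E L' h)) (hs _).symm
  -- the root of unity in `L'`
  have hζ'p : (algebraMap E L' ⟨ζ, hζE⟩ : L') ^ p = 1 := by
    apply Subtype.ext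
    show ζ ^ p = 1
    exact hζp
  have hcadd : ∀ g h : L' ≃ₐ[E] L', χ (s (g * h)) = χ (s g) + χ (s h) := by
    intro g h
    rw [← hχhom]
    exact hfac (s g * s h) (s (g * h)) (by rw [map_mul, hs, hs, hs])
  -- Hilbert 90
  obtain ⟨β', hβ'0, hβ'⟩ := exists_kummer_generator (K := E) (L := L') p
    (algebraMap E L' ⟨ζ, hζE⟩) hζ'p (fun g => g.commutes _) (fun g => χ (s g)) hcadd
  let β : PadicAlgCl q := (β' : PadicAlgCl q)
  have hβ0 : β ≠ 0 := by
    intro h0
    exact hβ'0 (Subtype.ext h0)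
  have hσβ : ∀ σ : E.fixingSubgroup, (σ : GalQ q) β = ζ ^ (χ σ).val * β := by
    intro σ
    have h1 := hβ' (resE E L' σ)
    have h3 := congrArg (fun u : L' => (u : PadicAlgCl q)) h1
    simp only [resE_apply_coe] at h3
    rw [show (σ : GalQ q) β = (σ : GalQ q) (β' : PadicAlgCl q) from rfl, h3, hχs σ]
    rfl
  -- `b = β ^ p` lies in `E`
  have hbE : β ^ p ∈ E := by
    rw [← InfiniteGalois.fixedField_fixingSubgroup E, IntermediateField.mem_fixedField_iff]
    intro σ hσ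
    have := hσβ ⟨σ, hσ⟩
    show σ (β ^ p) = β ^ p
    rw [map_pow, show σ β = ζ ^ (χ ⟨σ, hσ⟩).val * β from this, mul_pow, ← pow_mul, mul_comm _ p,
      pow_mul, hζp, one_pow, one_mul]
  have hb0' : (⟨β ^ p, hbE⟩ : E) ≠ 0 := by
    intro h0
    exact pow_ne_zero p hβ0 (congrArg Subtype.val h0)
  refine ⟨Additive.ofMul (Units.mk0 ⟨β ^ p, hbE⟩ hb0'), Subtype.ext (funext fun σ => ?_)⟩
  exact huniq (Units.mk0 ⟨β ^ p, hbE⟩ hb0') β rfl σ (χ σ) (hσβ σ)

end Fermat.Agent.S55.H33
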