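/-
S55 / Program C, package C10 (leaf CD-e of `H12/CDDefs.lean`), helper33:
the fixed field of a `p`-Sylow subgroup of `Gal(L/ℚ)` for a level field `L`.
-/
import Fermat.Agent.S55.H12.CDDefs

set_option autoImplicit false

open IntermediateField

noncomputable section

namespace Fermat.Agent.S55.H33

open Fermat.Agent.S55.H70 Fermat.Agent.S55.H12

/-- An automorphism of `p`-power order of a field fixes every `p`-th root of unity. -/
theorem apply_eq_self_of_pow_eq_one {K : Type*} [Field K] (p : ℕ) [Fact p.Prime]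
    (σ : K ≃+* K) (j : ℕ) (hσ : ∀ x : K, (σ ^ p ^ j) x = x) (ζ : K) (hζ : ζ ^ p = 1) :
    σ ζ = ζ := by
  have hp : p.Prime := Fact.out
  by_cases h1 : ζ = 1
  · rw [h1, map_one]
  have ho : orderOf ζ = p := orderOf_eq_prime hζ h1
  have hfin : IsOfFinOrder ζ := isOfFinOrder_iff_pow_eq_one.mpr ⟨p, hp.pos, hζ⟩
  have hprim : IsPrimitiveRoot ζ p := ho ▸ IsPrimitiveRoot.orderOf ζ
  have hσζ : (σ ζ) ^ p = 1 := by rw [← map_pow, hζ, map_one]
  obtain ⟨a, -, ha⟩ := hprim.eq_pow_of_pow_eq_one hσζ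
  have hiter : ∀ k : ℕ, (σ ^ k) ζ = ζ ^ a ^ k := by
    intro k
    induction k with
    | zero => simp
    | succ k ih =>
      rw [pow_succ', RingAut.mul_apply, ih, map_pow, ← ha, ← pow_mul, ← pow_succ']
  have h2 : ζ ^ a ^ p ^ j = ζ ^ 1 := by rw [← hiter, hσ, pow_one]
  have h3 : a ^ p ^ j ≡ 1 [MOD p] := by
    have := hfin.pow_eq_pow_iff_modEq.mp h2
    rwa [ho] at this
  have h4 : ((a : ZMod p)) = 1 := by
    have := (ZMod.natCast_eq_natCast_iff _ _ _).mpr h3
    push_cast at this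
    rwa [ZMod.pow_card_pow] at this
  have h5 : a ≡ 1 [MOD p] := by
    rw [← ZMod.natCast_eq_natCast_iff]
    simpa using h4
  have h6 : ζ ^ a = ζ ^ 1 := hfin.pow_eq_pow_iff_modEq.mpr (by rw [ho]; exact h5)
  rw [← ha, h6, pow_one]

variable (p : ℕ) [Fact p.Prime] (S : Finset Nat.Primes)

/-- **Leaf CD-e** (`H12.SylowFieldStatement`): for a level field `L`, the fixed field `E` of a
`p`-Sylow subgroup of `Gal(L/ℚ)` (viewed inside `AlgebraicClosure ℚ`) satisfies `E ≤ L`,
`μ_p ⊆ E`, `[G_ℚ : G_E]` is finite and prime to `p`, and every element of `G_E` has a `p`-power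
power in `G_L`. -/
theorem sylowFieldStatement : SylowFieldStatement p S := by
  intro L hL
  obtain ⟨⟨hfd, -⟩, hgal, hμ⟩ := hL
  have hgalQ : IsGalois ℚ (AlgebraicClosure ℚ) := isGalois_algClosure_rat
  have : FiniteDimensional ℚ L := by
    convert hfd
  have := hgal
  -- the restriction map to `Gal(L/ℚ)`
  let res : GQ →* (L ≃ₐ[ℚ] L) := AlgEquiv.restrictNormalHom L
  have hres : Function.Surjective res := AlgEquiv.restrictNormalHom_surjective _
  have hres_apply : ∀ (h : GQ) (x : L), ((res h x : L) : AlgebraicClosure ℚ) = h x :=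
    fun h x => AlgEquiv.restrictNormal_commutes h L x
  have : Finite (L ≃ₐ[ℚ] L) := inferInstance
  let P : Sylow p (L ≃ₐ[ℚ] L) := default
  let E₀ : IntermediateField ℚ L := IntermediateField.fixedField (P : Subgroup (L ≃ₐ[ℚ] L))
  let E : IntermediateField ℚ (AlgebraicClosure ℚ) :=
    E₀.map (IsScalarTower.toAlgHom ℚ L (AlgebraicClosure ℚ))
  have hfix : E.fixingSubgroup = (P : Subgroup (L ≃ₐ[ℚ] L)).comap res := by
    show (E₀.map (IsScalarTower.toAlgHom ℚ L (AlgebraicClosure ℚ))).fixingSubgroup = _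
    rw [IntermediateField.map_fixingSubgroup, IntermediateField.fixingSubgroup_fixedField]
  refine ⟨E, ?_, ?_, ?_, ?_, ?_⟩
  · -- `E ≤ L`
    rintro _ ⟨x, -, rfl⟩
    exact x.2
  · -- `μ_p ⊆ E`
    intro ζ hζ
    have hζL : ζ ∈ L := hμ ζ hζ
    refine ⟨⟨ζ, hζL⟩, ?_, rfl⟩
    show (⟨ζ, hζL⟩ : L) ∈ IntermediateField.fixedField (P : Subgroup (L ≃ₐ[ℚ] L))
    rw [IntermediateField.mem_fixedField_iff]
    intro σ hσ
    obtain ⟨j, hj⟩ := (P.isPGroup') ⟨σ, hσ⟩
    have hj' : σ ^ p ^ j = 1 := congrArg Subtype.val hj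
    have := apply_eq_self_of_pow_eq_one p (σ : L ≃+* L) j (fun x => ?_) (⟨ζ, hζL⟩ : L)
      (Subtype.ext hζ)
    · exact this
    · have h1 : ((σ : L ≃+* L) ^ p ^ j) x = (σ ^ p ^ j) x := by
        rw [RingAut.coe_pow, AlgEquiv.coe_pow]
        rfl
      rw [h1, hj']
      rfl
  · -- index ≠ 0
    rw [hfix, Subgroup.index_comap_of_surjective _ hres]
    exact Subgroup.index_ne_zero_of_finite
  · -- index prime to p
    rw [hfix, Subgroup.index_comap_of_surjective _ hres]
    exact P.not_dvd_index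
  · -- `p`-power powers land in `G_L`
    intro h hh
    rw [hfix, Subgroup.mem_comap] at hh
    obtain ⟨j, hj⟩ := (P.isPGroup') ⟨res h, hh⟩
    have hj' : res h ^ p ^ j = 1 := congrArg Subtype.val hj
    refine ⟨j, ?_⟩
    rw [IntermediateField.mem_fixingSubgroup_iff]
    intro x hx
    have h2 := hres_apply (h ^ p ^ j) ⟨x, hx⟩
    rw [map_pow, hj'] at h2
    exact h2.symm

end Fermat.Agent.S55.H33
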