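import Fermat.Agent.S55.H33.RecQAbs

/-!
# S55 / C9b, leaf (RECQ): helper62's `RECStatement` from finite-level reciprocity over `ℚ`

`recStatement_of`: `H62.RECStatement p S inv` from

* `RecQStatement p S`         (C8 reciprocity for the layers `K/ℚ`),
* `UnitOutsideQStatement S`   (C5's (L7) for these layers),
* `LocCmpStatement p S inv ζ` (the local invariants of `[ζ ^ u]` are `inv q (loc_q [u]) / p`).
-/

set_option autoImplicit false
set_option maxHeartbeats 400000
set_option synthInstance.maxHeartbeats 400000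

open CategoryTheory groupCohomology ExtCitation

noncomputable section

namespace Fermat.Agent.S55.H33

open Fermat.Agent.S55

local notation "Qbar" => AlgebraicClosure ℚ
local notation "Γ" => (AlgebraicClosure ℚ ≃ₐ[ℚ] AlgebraicClosure ℚ)

local instance isAlgebraicQbar_h33 : Algebra.IsAlgebraic ℚ (AlgebraicClosure ℚ) :=
  AlgebraicClosure.isAlgebraic ℚ
local instance isAlgClosureQbar_h33 : IsAlgClosure ℚ (AlgebraicClosure ℚ) :=
  ⟨inferInstance, inferInstance⟩
local instance normalQbar_h33 : Normal ℚ (AlgebraicClosure ℚ) :=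
  IsAlgClosure.normal ℚ (AlgebraicClosure ℚ)

attribute [local instance] H88.factOfPrimes

variable {p : ℕ} [Fact p.Prime] {S : Finset Nat.Primes}

/-- The restriction of `g` acts on a `p`-th root of unity of `K` through the cyclotomic
character. -/
theorem restrict_rho_zeta (K : IntermediateField ℚ Qbar) [Normal ℚ K] (ζK : Kˣ)
    (hζ : ζK ^ p = 1) (g : Γ) :
    (Rep.ofAlgebraAutOnUnits ℚ K).ρ (AlgEquiv.restrictNormalHom K g)
        (Rep.toAdditive.symm (Additive.ofMul ζK)) =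
      ((cycloChar p g : (ZMod p)ˣ) : ZMod p).val •
        (Rep.toAdditive.symm (Additive.ofMul ζK) : Rep.ofAlgebraAutOnUnits ℚ K) := by
  refine Additive.toMul.injective (Units.ext (Subtype.ext ?_))
  have h1 : (((ζK : K) : Qbar)) ^ p = 1 := by
    have := congrArg (fun x : Kˣ => ((x : K) : Qbar)) hζ
    simpa using this
  have h2 := Fermat.Agent.S29.H81.apply_eq_pow_cycloChar (p := p) g h1
  show ((AlgEquiv.restrictNormalHom K g (ζK : K) : K) : Qbar) =
    (((ζK ^ ((cycloChar p g : (ZMod p)ˣ) : ZMod p).val : Kˣ) : K) : Qbar)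
  rw [Units.val_pow_eq_pow_val, SubmonoidClass.coe_pow, ← h2]
  exact AlgEquiv.restrictNormal_commutes g K (ζK : K)

/-- The place of `ℚ` above `q`. -/
def vQ (q : Nat.Primes) : H88.FinPlace ℚ :=
  ⟨q, H88.placeOf (q : ℕ) (algebraMap ℚ (PadicAlgCl (q : ℕ)))⟩

theorem finPlace_rat_eq (v : H88.FinPlace ℚ) : v = vQ v.1 := by
  obtain ⟨q, w⟩ := v
  have : Subsingleton (H88.PlaceAbove (q : ℕ) ℚ) := by
    unfold H88.PlaceAbove
    infer_instance
  exact Sigma.ext rfl (heq_of_eq (Subsingleton.elim _ _))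

theorem sum_sPlaces_rat {A : Type} [AddCommMonoid A] (S : Finset Nat.Primes)
    (f : H88.FinPlace ℚ → A) :
    ∑ v ∈ H88.sPlaces ℚ S, f v = ∑ q : ↥S, f (vQ q.1) := by
  rw [Finset.sum_coe_sort S (fun q => f (vQ q))]
  exact (Finset.sum_bij (fun q _ => vQ q) (fun q hq => H88.mem_sPlaces_iff.2 hq)
    (fun q _ q' _ h => congrArg Sigma.fst h)
    (fun v hv => ⟨v.1, H88.mem_sPlaces_iff.1 hv, (finPlace_rat_eq v).symm⟩)
    (fun _ _ => rfl)).symm

/-- **(RECQ)**: the reciprocity law `H62.RECStatement p S inv` from finite-level reciprocity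
over `ℚ`. -/
theorem recStatement_of (hpS : pPrime p ∈ S) (inv : H62.LocalInv p S) (ζ : Qbar)
    (hζ : ζ ^ p = 1) (hRec : RecQStatement p S) (hOut : UnitOutsideQStatement S)
    (hCmp : LocCmpStatement p S inv ζ) : H62.RECStatement p S inv := by
  intro x
  obtain ⟨u, rfl⟩ := Submodule.mkQ_surjective _ x
  -- the level
  obtain ⟨F, hF, hconst⟩ := u.2.2
  obtain ⟨L, ⟨hL, -, hLμ⟩, -⟩ := H43.exists_levelField S hpS
    (Rep.trivial (ZMod p) Γ (ZMod p)) (fun m => ⟨⊥, inferInstance, fun s _ => rfl⟩)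
    (fun q _ A _ g _ => rfl)
  obtain ⟨K, hK, hle, -, hKgal⟩ := H43.exists_normal_level (hF.sup hL)
  have := hK.1
  have := hKgal
  have hμ : ∀ ζ' : Qbar, ζ' ^ p = 1 → ζ' ∈ K := fun ζ' h =>
    hle ((le_sup_right : L ≤ F ⊔ L) (hLμ ζ' h))
  have hζ0 : ζ ≠ 0 := by
    rintro rfl
    rw [zero_pow (Fact.out : p.Prime).ne_zero] at hζ
    exact zero_ne_one hζ
  let ζK : Kˣ := Units.mk0 ⟨ζ, hμ ζ hζ⟩ (fun h => hζ0 (congrArg Subtype.val h))
  have hζK : ζK ^ p = 1 := Units.ext (Subtype.ext hζ)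
  -- the restriction to `K`
  let π : Γ →* (K ≃ₐ[ℚ] K) := AlgEquiv.restrictNormalHom K
  have hπ : Function.Surjective π := AlgEquiv.restrictNormalHom_surjective Qbar
  have hker : ∀ n : Γ, π n = 1 → n ∈ F.fixingSubgroup := fun n hn => by
    have h1 : n ∈ K.fixingSubgroup := by
      rw [IntermediateField.mem_fixingSubgroup_iff]
      intro x hx
      have h2 := AlgEquiv.restrictNormal_commutes n K ⟨x, hx⟩
      have h3 : n.restrictNormal K = 1 := hn
      rw [h3] at h2
      exact h2.symm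
    exact IntermediateField.fixingSubgroup_antitone (le_sup_left.trans hle) h1
  have hu : ∀ g h j : Γ, (cycloChar p g : ZMod p) * u.1 (h, j) - u.1 (g * h, j) +
      u.1 (g, h * j) - u.1 (g, h) = 0 := (mem_cocycles₂_def _).1 u.2.1
  have hconst' : ∀ g h n n' : Γ, π n = 1 → π n' = 1 → u.1 (g * n, h * n') = u.1 (g, h) :=
    fun g h n n' hn hn' => hconst g h n n' (hker n hn) (hker n' hn')
  -- the cocycle with values in `Kˣ`
  let M : Rep.{0, 0, 0} ℤ (K ≃ₐ[ℚ] K) := Rep.ofAlgebraAutOnUnits ℚ K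
  let m : M := Rep.toAdditive.symm (Additive.ofMul ζK)
  have hm : p • m = 0 := congrArg Additive.ofMul hζK
  let z : ZMod p →+ M := zHom m hm
  have hz : ∀ (g : Γ) (a : ZMod p), M.ρ (π g) (z a) = z ((cycloChar p g : ZMod p) * a) :=
    fun g a => rho_zmod_hom M z (π g) _ (by
      rw [zHom_one]
      exact restrict_rho_zeta K ζK hζK g) a
  obtain ⟨c, hc⟩ := exists_cocycle_of_descent π hπ M (cycloChar p) z hz (fun x => u.1 x) hu
    hconst'
  have hc' : ∀ σ τ : Γ, c.1 (π σ, π τ) = zetaPowG p ζK (u.1 (σ, τ)) := fun σ τ => by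
    rw [hc, zHom_apply]
    rfl
  have hpα : p • (H2π M c) = 0 := by
    have h0 : p • c = 0 := by
      ext x y
      obtain ⟨g, rfl⟩ := hπ x
      obtain ⟨h, rfl⟩ := hπ y
      show p • c.1 (π g, π h) = 0
      rw [hc, ← map_nsmul, nsmul_eq_mul, CharP.cast_eq_zero, zero_mul, map_zero]
    rw [← map_nsmul, h0, map_zero]
  -- the cocycle with values in the `S`-units
  have hmem : ζK ∈ H88.sUnitGroup S K := fun q _ τ => by
    have h1 : (τ (ζK : K)) ^ p = 1 := by
      rw [← map_pow, ← Units.val_pow_eq_pow_val, hζK, Units.val_one, map_one]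
    have h2 : ‖τ (ζK : K)‖ ^ p = 1 := by rw [← norm_pow, h1, norm_one]
    exact (pow_eq_one_iff_of_nonneg (norm_nonneg _) (Fact.out : p.Prime).ne_zero).1 h2
  let U : Rep.{0, 0, 0} ℤ (K ≃ₐ[ℚ] K) := H88.sUnitRep S ℚ K
  let mU : U := Rep.toAdditive.symm (Additive.ofMul (⟨ζK, hmem⟩ : H88.sUnitGroup S K))
  have hmU : p • mU = 0 := congrArg Additive.ofMul (Subtype.ext hζK)
  let zU : ZMod p →+ U := zHom mU hmU
  have hinj : Function.Injective (H88.sUnitIncl S ℚ K).hom := fun a b hab =>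
    Additive.toMul.injective (Subtype.ext (congrArg Additive.toMul hab))
  have hzU : ∀ (g : Γ) (a : ZMod p), U.ρ (π g) (zU a) = zU ((cycloChar p g : ZMod p) * a) :=
    fun g a => rho_zmod_hom U zU (π g) _ (by
      rw [zHom_one]
      apply hinj
      rw [Rep.hom_comm_apply, map_nsmul]
      exact restrict_rho_zeta K ζK hζK g) a
  obtain ⟨cU, hcU⟩ := exists_cocycle_of_descent π hπ U (cycloChar p) zU hzU (fun x => u.1 x) hu
    hconst'
  have hβ : H29.mapH2 (H88.sUnitIncl S ℚ K) (H2π U cU) = H2π M c := by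
    show (groupCohomology.map (MonoidHom.id _) (H88.sUnitIncl S ℚ K) 2) (H2π U cU) = H2π M c
    rw [H2π_comp_map_apply]
    congr 1
    ext x y
    obtain ⟨g, rfl⟩ := hπ x
    obtain ⟨h, rfl⟩ := hπ y
    show (H88.sUnitIncl S ℚ K).hom (cU.1 (π g, π h)) = c.1 (π g, π h)
    rw [hcU, hc, zHom_apply, zHom_apply, map_nsmul]
    rfl
  -- reciprocity
  have hrec := hRec K hK hμ (H2π M c) hpα
  have hout := hOut K hK
  have hsum : ∑ v ∈ H88.sPlaces ℚ S, (H88.layerOf ℚ K).linv v (H2π M c) = 0 := by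
    unfold H29.Layer.RecAt at hrec
    rw [← hrec]
    refine (finsum_eq_sum_of_support_subset _ fun v hv => ?_).symm
    by_contra hvS
    refine hv ?_
    show (H88.layerOf ℚ K).linv v (H2π M c) = 0
    rw [← hβ]
    exact hout v (show v ∉ H88.sPlaces ℚ S by simpa using hvS) (H2π U cU)
  rw [sum_sPlaces_rat] at hsum
  have hq : ∀ q : ↥S, (H88.layerOf ℚ K).linv (vQ q.1) (H2π M c) =
      H26.qzOfZMod p (inv q (locRes₂S S (H62.chiRep p) (primeLocalToGlobal q.1)
        (continuousH2Sπ S (H62.chiRep p) u))) :=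
    fun q => hCmp K ζK rfl u c hc' q (vQ q.1) rfl
  rw [Finset.sum_congr rfl fun q _ => hq q, ← qzOfZMod_sum] at hsum
  exact qzOfZMod_eq_zero p hsum

end Fermat.Agent.S55.H33

end
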