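import Fermat.Agent.S55.H33.RecQDefs

/-!
# S55 / C9b, leaf (RECQ): abstract lemmas

* `exists_cocycle_of_descent`: a twisted `𝔽_p`-valued cocycle `u` of `G`, constant modulo the
  kernel of a surjection `π : G → Q`, descends to a cocycle `z ∘ u` of `Q` with values in a
  `Q`-module `M`, for `z : 𝔽_p → M` compatible with the twist;
* `zHom m hm : ZMod p →+ M`, `1 ↦ m` (for `p • m = 0`);
* `qzOfZMod_add`, `qzOfZMod_sum`, `qzOfZMod_eq_zero`: `a ↦ a / p`, `𝔽_p → ℚ/ℤ`, is additive and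
  injective.
-/

set_option autoImplicit false

open CategoryTheory groupCohomology

noncomputable section

namespace Fermat.Agent.S55.H33

open Fermat.Agent.S55

variable {p : ℕ} [Fact p.Prime]

/-- **Descent of a twisted cocycle along a surjection.** -/
theorem exists_cocycle_of_descent {G Q : Type} [Group G] [Group Q] (π : G →* Q)
    (hπ : Function.Surjective π) (M : Rep.{0, 0, 0} ℤ Q) (χ : G →* (ZMod p)ˣ) (z : ZMod p →+ M)
    (hz : ∀ (g : G) (a : ZMod p), M.ρ (π g) (z a) = z ((χ g : ZMod p) * a))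
    (u : G × G → ZMod p)
    (hu : ∀ g h j : G,
      (χ g : ZMod p) * u (h, j) - u (g * h, j) + u (g, h * j) - u (g, h) = 0)
    (hconst : ∀ g h n n' : G, π n = 1 → π n' = 1 → u (g * n, h * n') = u (g, h)) :
    ∃ c : cocycles₂ M, ∀ g h : G, c.1 (π g, π h) = z (u (g, h)) := by
  classical
  let s : Q → G := Function.surjInv hπ
  have hs : ∀ x, π (s x) = x := Function.surjInv_eq hπ
  let f : Q × Q → M := fun x => z (u (s x.1, s x.2))
  have hf : ∀ g h : G, f (π g, π h) = z (u (g, h)) := by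
    intro g h
    show z (u (s (π g), s (π h))) = z (u (g, h))
    have h1 := hconst g h (g⁻¹ * s (π g)) (h⁻¹ * s (π h))
      (by rw [map_mul, map_inv, hs, inv_mul_cancel]) (by rw [map_mul, map_inv, hs, inv_mul_cancel])
    rw [mul_inv_cancel_left, mul_inv_cancel_left] at h1
    rw [h1]
  refine ⟨⟨f, (mem_cocycles₂_iff f).2 fun x y w => ?_⟩, hf⟩
  obtain ⟨g, rfl⟩ := hπ x
  obtain ⟨h, rfl⟩ := hπ y
  obtain ⟨j, rfl⟩ := hπ w
  rw [← map_mul, ← map_mul, hf, hf, hf, hf, hz, ← map_add, ← map_add]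
  congr 1
  linear_combination -(hu g h j)

/-- The additive map `ZMod p →+ M`, `1 ↦ m`, for `p • m = 0`. -/
def zHom {M : Type} [AddCommGroup M] (m : M) (hm : p • m = 0) : ZMod p →+ M :=
  ZMod.lift p ⟨zmultiplesHom M m, by
    show ((p : ℕ) : ℤ) • m = 0
    rw [natCast_zsmul, hm]⟩

theorem zHom_apply {M : Type} [AddCommGroup M] (m : M) (hm : p • m = 0) (a : ZMod p) :
    zHom m hm a = a.val • m := by
  have : NeZero p := ⟨(Fact.out : p.Prime).ne_zero⟩
  have h : a = ((a.val : ℤ) : ZMod p) := by rw [Int.cast_natCast, ZMod.natCast_zmod_val]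
  conv_lhs => rw [h]
  rw [zHom, ZMod.lift_coe]
  show ((a.val : ℕ) : ℤ) • m = a.val • m
  rw [natCast_zsmul]

theorem zHom_one {M : Type} [AddCommGroup M] (m : M) (hm : p • m = 0) : zHom m hm 1 = m := by
  have : Fact (1 < p) := ⟨(Fact.out : p.Prime).one_lt⟩
  rw [zHom_apply, ZMod.val_one, one_nsmul]

/-- An additive map out of `ZMod p` is determined by its value at `1`. -/
theorem zmod_hom_apply {M : Type} [AddCommGroup M] (z : ZMod p →+ M) (a : ZMod p) :
    z a = a.val • z 1 := by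
  have : NeZero p := ⟨(Fact.out : p.Prime).ne_zero⟩
  rw [← map_nsmul, nsmul_one, ZMod.natCast_zmod_val]

/-- Compatibility of `z` with a twist, from the value at `1`. -/
theorem rho_zmod_hom {Q : Type} [Group Q] (M : Rep.{0, 0, 0} ℤ Q) (z : ZMod p →+ M) (x : Q)
    (c : ZMod p) (h : M.ρ x (z 1) = c.val • z 1) (a : ZMod p) : M.ρ x (z a) = z (c * a) := by
  have : NeZero p := ⟨(Fact.out : p.Prime).ne_zero⟩
  have hc : z (c * a) = c.val • z a := by
    rw [← map_nsmul, nsmul_eq_mul, ZMod.natCast_zmod_val]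
  rw [hc, zmod_hom_apply z a, map_nsmul, h, smul_comm]

variable (p)

theorem qzOfZMod_eq_zero {a : ZMod p} (h : H26.qzOfZMod p a = 0) : a = 0 := by
  have : NeZero p := ⟨(Fact.out : p.Prime).ne_zero⟩
  have hp : (0 : ℚ) < p := by exact_mod_cast (Fact.out : p.Prime).pos
  obtain ⟨n, hn⟩ := (AddCircle.coe_eq_zero_iff (p := (1 : ℚ))).1 h
  have h1 : (n : ℚ) * p = a.val := by
    rw [zsmul_eq_mul, mul_one] at hn
    rw [hn]
    field_simp
  have h2 : (n * p : ℤ) = (a.val : ℤ) := by exact_mod_cast h1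
  have h3 : (a.val : ℤ) < p := by exact_mod_cast ZMod.val_lt a
  have h4 : (0 : ℤ) ≤ a.val := by positivity
  have hp' : (0 : ℤ) < p := by exact_mod_cast (Fact.out : p.Prime).pos
  have h5 : n = 0 := by
    by_contra hne
    rcases lt_or_gt_of_ne hne with hlt | hgt
    · nlinarith
    · nlinarith
  rw [h5, zero_mul] at h2
  have h6 : a.val = 0 := by exact_mod_cast h2.symm
  exact (ZMod.val_eq_zero a).1 h6

theorem qzOfZMod_add (a b : ZMod p) :
    H26.qzOfZMod p (a + b) = H26.qzOfZMod p a + H26.qzOfZMod p b := by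
  have : NeZero p := ⟨(Fact.out : p.Prime).ne_zero⟩
  have hp : (p : ℚ) ≠ 0 := by exact_mod_cast (Fact.out : p.Prime).ne_zero
  obtain ⟨k, hk⟩ : ∃ k : ℕ, (a + b).val + p * k = a.val + b.val :=
    ⟨(a.val + b.val) / p, by rw [ZMod.val_add]; exact Nat.mod_add_div _ _⟩
  have h2 : (((a + b).val : ℚ)) + p * (k : ℚ) = a.val + b.val := by exact_mod_cast hk
  unfold H26.qzOfZMod
  rw [← AddCircle.coe_add, ← sub_eq_zero, ← AddCircle.coe_sub, AddCircle.coe_eq_zero_iff]
  refine ⟨-(k : ℤ), ?_⟩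
  rw [zsmul_eq_mul, mul_one]
  push_cast
  field_simp
  linear_combination -h2

theorem qzOfZMod_sum {ι : Type} (s : Finset ι) (f : ι → ZMod p) :
    H26.qzOfZMod p (∑ i ∈ s, f i) = ∑ i ∈ s, H26.qzOfZMod p (f i) := by
  classical
  induction s using Finset.induction_on with
  | empty => simp [H26.qzOfZMod]
  | insert i s hi ih => rw [Finset.sum_insert hi, Finset.sum_insert hi, qzOfZMod_add, ih]

end Fermat.Agent.S55.H33

end
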